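import Mathlib

set_option autoImplicit false

namespace Fermat.Agent.S55

open Module

/-- Two finite-dimensional spaces of equal dimension admit a bilinear pairing that is
nondegenerate on both sides. -/
theorem exists_perfect_pairing_of_finrank_eq {k : Type*} [Field k]
    {V W : Type*} [AddCommGroup V] [Module k V] [AddCommGroup W] [Module k W]
    [FiniteDimensional k V] [FiniteDimensional k W]
    (h : finrank k V = finrank k W) :
    ∃ B : V →ₗ[k] W →ₗ[k] k,
      (∀ y, (∀ x, B y x = 0) → y = 0) ∧ (∀ x, (∀ y, B y x = 0) → x = 0) := by
  classical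
  -- a linear equivalence `e : V ≃ Dual W`
  have hdual : finrank k V = finrank k (Dual k W) := by
    rw [h, Subspace.dual_finrank_eq]
  obtain ⟨e⟩ := FiniteDimensional.nonempty_linearEquiv_of_finrank_eq hdual
  refine ⟨e.toLinearMap, ?_, ?_⟩
  · intro y hy
    have : e y = 0 := LinearMap.ext hy
    exact e.map_eq_zero_iff.mp this
  · intro x hx
    by_contra hne
    -- there is a functional not vanishing at `x`
    obtain ⟨f, hf⟩ : ∃ f : Dual k W, f x ≠ 0 := by
      by_contra hcon
      push_neg at hcon
      exact hne ((Module.forall_dual_apply_eq_zero_iff k x).mp hcon)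
    have := hx (e.symm f)
    simp at this
    exact hf this

end Fermat.Agent.S55
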